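import Mathlib

set_option autoImplicit false

open Polynomial

namespace Fermat.Agent.S10.V.Kummer

section LD

variable {R : Type*} [CommRing R]

/-- `g` is a logarithmic derivative of `F` modulo `(X-1)^k`. -/
def LD (k : ℕ) (F g : R[X]) : Prop := (X - 1 : R[X]) ^ k ∣ derivative F - F * g

theorem LD_one (k : ℕ) : LD k (1 : R[X]) 0 := by
  simp [LD]

theorem LD_mul {k : ℕ} {F₁ F₂ g₁ g₂ : R[X]} (h₁ : LD k F₁ g₁) (h₂ : LD k F₂ g₂) :
    LD k (F₁ * F₂) (g₁ + g₂) := by
  unfold LD at *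
  have : derivative (F₁ * F₂) - F₁ * F₂ * (g₁ + g₂) =
      (derivative F₁ - F₁ * g₁) * F₂ + F₁ * (derivative F₂ - F₂ * g₂) := by
    rw [derivative_mul]; ring
  rw [this]
  exact dvd_add (Dvd.dvd.mul_right h₁ _) (Dvd.dvd.mul_left h₂ _)

theorem LD_pow {k : ℕ} {F g : R[X]} (h : LD k F g) (n : ℕ) : LD k (F ^ n) (n • g) := by
  induction n with
  | zero => simpa using LD_one k
  | succ n ih =>
    rw [pow_succ, succ_nsmul]
    exact LD_mul ih h

theorem LD_prod {k : ℕ} {κ : Type*} (s : Finset κ) (f g : κ → R[X]) (n : κ → ℕ)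
    (h : ∀ i, LD k (f i) (g i)) : LD k (∏ i ∈ s, f i ^ n i) (∑ i ∈ s, n i • g i) := by
  classical
  induction s using Finset.induction_on with
  | empty => simpa using LD_one k
  | insert a s ha ih =>
    rw [Finset.prod_insert ha, Finset.sum_insert ha]
    exact LD_mul (LD_pow (h a) _) ih

theorem dvd_of_LD [IsDomain R] {k : ℕ} {F g : R[X]} {m : R}
    (hF : (X - 1 : R[X]) ^ (k + 1) ∣ F - C m) (h : LD k F g) (h1 : F.eval 1 ≠ 0) :
    (X - 1 : R[X]) ^ k ∣ g := by
  have hd : (X - 1 : R[X]) ^ k ∣ derivative F := by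
    obtain ⟨A, hA⟩ := hF
    have : derivative F = derivative ((X - 1 : R[X]) ^ (k + 1) * A) := by
      rw [← hA]; simp
    rw [this, derivative_mul, derivative_pow]
    refine dvd_add ?_ ?_
    · simp only [Nat.add_sub_cancel]
      exact Dvd.dvd.mul_right (Dvd.dvd.mul_right (Dvd.dvd.mul_left (dvd_refl _) _) _) _
    · exact Dvd.dvd.mul_right (pow_dvd_pow _ (Nat.le_succ k)) _
  have h2 : (X - 1 : R[X]) ^ k ∣ F * g := by
    have := dvd_sub hd h
    simpa using this
  have hprime : Prime (X - 1 : R[X]) := by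
    have := prime_X_sub_C (1 : R)
    simpa using this
  refine hprime.pow_dvd_of_dvd_mul_left k ?_ h2
  intro hdvd
  apply h1
  have : (X - C (1 : R)) ∣ F := by simpa using hdvd
  exact (dvd_iff_isRoot.1 this)

/-- coefficient extraction in the basis `(X-1)^j`. -/
theorem coeff_eq_zero_of_dvd {k : ℕ} (a : ℕ → R)
    (h : (X - 1 : R[X]) ^ k ∣ ∑ j ∈ Finset.range k, C (a j) * (X - 1) ^ j) :
    ∀ j < k, a j = 0 := by
  have h2 : (X : R[X]) ^ k ∣ ∑ j ∈ Finset.range k, C (a j) * X ^ j := by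
    obtain ⟨A, hA⟩ := h
    refine ⟨A.comp (X + 1), ?_⟩
    have := congrArg (fun q : R[X] => q.comp (X + 1)) hA
    simp only [mul_comp, pow_comp, sub_comp, X_comp, one_comp, add_sub_cancel_right] at this
    rw [← this]
    rw [Polynomial.sum_comp]
    simp
  rw [X_pow_dvd_iff] at h2
  intro j hj
  have := h2 j hj
  rw [finsetSum_coeff] at this
  simp only [coeff_C_mul, coeff_X_pow] at this
  rw [Finset.sum_eq_single j] at this
  · simpa using this
  · intro b _ hb
    simp [Ne.symm hb]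
  · intro hj'
    exact absurd (Finset.mem_range.2 hj) hj'

end LD

end Fermat.Agent.S10.V.Kummer
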