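import Mathlib
import Fermat.Agent.S10.V.Kummer.Abstract
import Fermat.Agent.S10.V.Kummer.UnitsOpt
import Fermat.Agent.S10.V.Kummer.LogDeriv

set_option autoImplicit false

open Polynomial NumberField

namespace Fermat.Agent.S10.V.Kummer

section

variable (p : ℕ) [hp : Fact p.Prime] {K : Type*} [Field K] [NumberField K]
  [IsCyclotomicExtension {p} ℚ K] {ζ : K} (hζ : IsPrimitiveRoot ζ p)

include hζ in
theorem exists_eq_aeval_toInteger (y : 𝓞 K) : ∃ G : ℤ[X], y = aeval hζ.toInteger G := by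
  obtain ⟨G, hG⟩ := hζ.integralPowerBasis.exists_eq_aeval' y
  exact ⟨G, by rw [hG, IsPrimitiveRoot.integralPowerBasis_gen]⟩

theorem dvd_map_sub_C_of_dvd (F : ℤ[X]) (m : ℤ)
    (h : (p : 𝓞 K) ∣ aeval hζ.toInteger F - (m : 𝓞 K)) :
    (X - 1 : (ZMod p)[X]) ^ (p - 1) ∣ F.map (Int.castRingHom (ZMod p)) - C (m : ZMod p) := by
  obtain ⟨y, hy⟩ := h
  obtain ⟨G, rfl⟩ := exists_eq_aeval_toInteger p hζ y
  have h0 : aeval hζ.toInteger (F - C m - C (p : ℤ) * G) = 0 := by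
    have e1 : aeval hζ.toInteger (C m : ℤ[X]) = (m : 𝓞 K) := by simp
    have e2 : aeval hζ.toInteger (C (p : ℤ) : ℤ[X]) = (p : 𝓞 K) := by simp
    rw [map_sub, map_sub, map_mul, e1, e2, hy, sub_self]
  have h1 : aeval ζ (F - C m - C (p : ℤ) * G) = 0 := by
    have := congrArg (algebraMap (𝓞 K) K) h0
    rw [← aeval_algebraMap_apply, map_zero] at this
    exact this
  have h2 : cyclotomic p ℤ ∣ F - C m - C (p : ℤ) * G := by
    rw [cyclotomic_eq_minpoly hζ hp.out.pos]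
    exact minpoly.isIntegrallyClosed_dvd (hζ.isIntegral hp.out.pos) h1
  have h3 := Polynomial.map_dvd (Int.castRingHom (ZMod p)) h2
  rw [map_cyclotomic] at h3
  have h4 : cyclotomic p (ZMod p) = (X - 1) ^ (p - 1) := by
    have := cyclotomic_mul_prime_eq_pow_of_not_dvd (ZMod p) (p := p) (n := 1)
      (by simpa using hp.out.one_lt.ne')
    rwa [one_mul, cyclotomic_one] at this
  rw [h4] at h3
  simpa using h3

include hζ in
theorem exists_int_dvd_pow_sub (x : 𝓞 K) : ∃ m : ℤ, (p : 𝓞 K) ∣ x ^ p - (m : 𝓞 K) := by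
  obtain ⟨G, rfl⟩ := exists_eq_aeval_toInteger p hζ x
  induction G using Polynomial.induction_on' with
  | add F G hF hG =>
    obtain ⟨a, ha⟩ := hF
    obtain ⟨b, hb⟩ := hG
    obtain ⟨r, hr⟩ := exists_add_pow_prime_eq hp.out (aeval hζ.toInteger F) (aeval hζ.toInteger G)
    refine ⟨a + b, ?_⟩
    rw [map_add, hr]
    have : aeval hζ.toInteger F ^ p + aeval hζ.toInteger G ^ p +
        (p : 𝓞 K) * aeval hζ.toInteger F * aeval hζ.toInteger G * r - ((a + b : ℤ) : 𝓞 K) =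
        (aeval hζ.toInteger F ^ p - a) + (aeval hζ.toInteger G ^ p - b) +
        (p : 𝓞 K) * (aeval hζ.toInteger F * aeval hζ.toInteger G * r) := by
      push_cast; ring
    rw [this]
    exact dvd_add (dvd_add ha hb) (dvd_mul_right _ _)
  | monomial n a =>
    refine ⟨a ^ p, ?_⟩
    have h1 : hζ.toInteger ^ p = 1 := hζ.toInteger_isPrimitiveRoot.pow_eq_one
    rw [aeval_monomial, mul_pow, ← pow_mul, mul_comm n p, pow_mul, h1, one_pow, mul_one]
    simp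

/-- units congruent to a rational integer modulo `p`. -/
def intModSubgroup : Subgroup (𝓞 K)ˣ where
  carrier := {u | ∃ m : ℤ, (p : 𝓞 K) ∣ (u : 𝓞 K) - (m : 𝓞 K)}
  one_mem' := ⟨1, by simp⟩
  mul_mem' := by
    rintro u v ⟨a, ha⟩ ⟨b, hb⟩
    refine ⟨a * b, ?_⟩
    have : ((u * v : (𝓞 K)ˣ) : 𝓞 K) - ((a * b : ℤ) : 𝓞 K) =
        (u : 𝓞 K) * ((v : 𝓞 K) - b) + b * ((u : 𝓞 K) - a) := by
      push_cast; ring
    rw [this]
    exact dvd_add (Dvd.dvd.mul_left hb _) (Dvd.dvd.mul_left ha _)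
  inv_mem' := by
    rintro u ⟨a, ha⟩
    have hζ := IsCyclotomicExtension.zeta_spec p ℚ K
    obtain ⟨b, hb⟩ := exists_int_dvd_pow_sub p hζ ((u⁻¹ : (𝓞 K)ˣ) : 𝓞 K)
    refine ⟨b * a ^ (p - 1), ?_⟩
    have h1 : (p : 𝓞 K) ∣ (u : 𝓞 K) ^ (p - 1) - (a : 𝓞 K) ^ (p - 1) :=
      ha.trans (sub_dvd_pow_sub_pow _ _ _)
    have h2 : ((u⁻¹ : (𝓞 K)ˣ) : 𝓞 K) = ((u⁻¹ : (𝓞 K)ˣ) : 𝓞 K) ^ p * (u : 𝓞 K) ^ (p - 1) := by
      have hpp : p = (p - 1) + 1 := (Nat.sub_add_cancel hp.out.one_le).symm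
      conv_rhs => rw [hpp, pow_succ]
      simp only [Nat.add_sub_cancel]
      rw [mul_assoc, mul_comm ((u⁻¹ : (𝓞 K)ˣ) : 𝓞 K), ← mul_assoc, ← mul_pow]
      simp
    have : ((u⁻¹ : (𝓞 K)ˣ) : 𝓞 K) - ((b * a ^ (p - 1) : ℤ) : 𝓞 K) =
        (((u⁻¹ : (𝓞 K)ˣ) : 𝓞 K) ^ p - b) * (u : 𝓞 K) ^ (p - 1) +
        b * ((u : 𝓞 K) ^ (p - 1) - (a : 𝓞 K) ^ (p - 1)) := by
      conv_lhs => rw [h2]
      push_cast; ring
    rw [this]
    exact dvd_add (Dvd.dvd.mul_right hb _) (Dvd.dvd.mul_left h1 _)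

theorem mem_intModSubgroup {u : (𝓞 K)ˣ} :
    u ∈ intModSubgroup p (K := K) ↔ ∃ m : ℤ, (p : 𝓞 K) ∣ (u : 𝓞 K) - (m : 𝓞 K) := Iff.rfl

end

/-- Kummer's lemma from a finite certificate. -/
theorem kummer_of_cert (p : ℕ) [hp : Fact p.Prime] (d k : ℕ) (hd : d = (p - 1) / 2)
    (hk : k + 2 = p) (hp2 : 2 < p)
    (K : Type*) [Field K] [NumberField K] [IsCyclotomicExtension {p} ℚ K]
    (c : Fin d → ℕ → ℤ)
    (hLD : ∀ i : Fin d, LD k (∑ j ∈ Finset.range ((i : ℕ) + 2), X ^ j : (ZMod p)[X])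
      (∑ j ∈ Finset.range k, C ((c i j : ℤ) : ZMod p) * (X - 1) ^ j))
    (hind : ∀ n : Fin d → ℕ, (∀ j < k, (p : ℤ) ∣ ∑ i, (n i : ℤ) * c i j) → ∀ i, p ∣ n i)
    (u : (𝓞 K)ˣ) (m : ℤ) (h : (p : 𝓞 K) ∣ (u : 𝓞 K) - (m : 𝓞 K)) :
    ∃ v : (𝓞 K)ˣ, u = v ^ p := by
  classical
  have hζ := IsCyclotomicExtension.zeta_spec p ℚ K
  set ζ' := hζ.toInteger with hζ'
  have hprim : IsPrimitiveRoot ζ' p := hζ.toInteger_isPrimitiveRoot
  let f : Fin d → ℤ[X] := fun i => ∑ j ∈ Finset.range ((i : ℕ) + 2), X ^ j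
  have hlt : ∀ i : Fin d, (i : ℕ) + 2 < p := by
    intro i
    have := i.2
    omega
  have hunit : ∀ i : Fin d, IsUnit (aeval ζ' (f i)) := by
    intro i
    have : aeval ζ' (f i) = ∑ j ∈ Finset.range ((i : ℕ) + 2), ζ' ^ j := by
      simp [f]
    rw [this]
    refine hprim.geom_sum_isUnit hp.out.two_le ?_
    exact Nat.Coprime.symm ((Nat.Prime.coprime_iff_not_dvd hp.out).2
      (Nat.not_dvd_of_pos_of_lt (by omega) (hlt i)))
  obtain ⟨g, hg⟩ := exists_units_generators K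
  refine mem_pow_of_indep p (intModSubgroup p (K := K)) ?_ g hg (fun i => (hunit i).unit) ?_ ?_ u
    ⟨m, h⟩
  · intro x
    obtain ⟨a, ha⟩ := exists_int_dvd_pow_sub p hζ (x : 𝓞 K)
    exact ⟨a, by simpa using ha⟩
  · rw [card_option_fin_rank p hp2 K, Fintype.card_fin, hd]
  · rintro n ⟨a, ha⟩
    have h1 : ((∏ i, (hunit i).unit ^ n i : (𝓞 K)ˣ) : 𝓞 K) = aeval ζ' (∏ i, f i ^ n i) := by
      simp [Units.coe_prod, map_prod]
    rw [h1] at ha
    have h2 := dvd_map_sub_C_of_dvd p hζ _ a ha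
    have hpk : p - 1 = k + 1 := by omega
    rw [hpk, Polynomial.map_prod] at h2
    simp only [Polynomial.map_pow] at h2
    have hf : ∀ i, (f i).map (Int.castRingHom (ZMod p)) =
        ∑ j ∈ Finset.range ((i : ℕ) + 2), X ^ j := by
      intro i
      simp [f, Polynomial.map_sum]
    simp only [hf] at h2
    have h3 := LD_prod (k := k) Finset.univ _ _ n hLD
    have h4 : (∏ i : Fin d,
        (∑ j ∈ Finset.range ((i : ℕ) + 2), X ^ j : (ZMod p)[X]) ^ n i).eval 1 ≠ 0 := by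
      rw [eval_prod]
      refine Finset.prod_ne_zero_iff.2 fun i _ => ?_
      rw [eval_pow]
      refine pow_ne_zero _ ?_
      simp only [eval_finsetSum, eval_pow, eval_X, one_pow, Finset.sum_const, Finset.card_range,
        nsmul_eq_mul, mul_one]
      intro h0
      have := (ZMod.natCast_eq_zero_iff _ _).1 h0
      exact Nat.not_dvd_of_pos_of_lt (by omega) (hlt i) this
    have h5 := dvd_of_LD h2 h3 h4
    have h6 : (∑ i, n i • ∑ j ∈ Finset.range k, C ((c i j : ℤ) : ZMod p) * (X - 1) ^ j) =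
        ∑ j ∈ Finset.range k, C (((∑ i, (n i : ℤ) * c i j : ℤ)) : ZMod p) * (X - 1) ^ j := by
      simp only [Finset.smul_sum]
      rw [Finset.sum_comm]
      refine Finset.sum_congr rfl fun j _ => ?_
      push_cast
      rw [map_sum, Finset.sum_mul]
      refine Finset.sum_congr rfl fun i _ => ?_
      rw [nsmul_eq_mul, map_mul, map_natCast, mul_assoc]
    rw [h6] at h5
    have h7 := coeff_eq_zero_of_dvd _ h5
    exact hind n fun j hj => (ZMod.intCast_zmod_eq_zero_iff_dvd _ _).1 (h7 j hj)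

end Fermat.Agent.S10.V.Kummer
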