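import Mathlib
import Fermat.Agent.S10.V.Kummer.Main

set_option autoImplicit false

open Polynomial NumberField

namespace Fermat.Agent.S10.V.Kummer

/-- certificate matrix for `p = 13`. -/
def cert13 : Fin 6 → ℕ → ℤ := fun i j =>
  ((![[-6, 3, 5, 4, -2, 1, 6, -3, -5, -4, 2], [1, 4, 0, 3, -3, 2, -1, -4, 0, -3, 3], [-5, 3, -2, -2, 1, 1, -2, 5, 4, -4, 4], [2, 0, -1, 6, 0, 2, -2, 4, -6, 3, 5], [-4, -5, 3, -5, -4, 1, 6, -6, 6, -6, 6], [3, 1, -3, 1, 3, -6, 0, 0, 0, 0, 0]] :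
    Fin 6 → List ℤ) i).getD j 0

theorem char13 : (13 : (ZMod 13)[X]) = 0 := by
  have := CharP.cast_eq_zero (ZMod 13)[X] 13
  exact_mod_cast this

theorem ld13_0 : LD 11 (1 + X : (ZMod 13)[X])
    (-6 + 3 * (X - 1) + 5 * (X - 1) ^ 2 + 4 * (X - 1) ^ 3 - 2 * (X - 1) ^ 4 + 1 * (X - 1) ^ 5 + 6 * (X - 1) ^ 6 - 3 * (X - 1) ^ 7 - 5 * (X - 1) ^ 8 - 4 * (X - 1) ^ 9 + 2 * (X - 1) ^ 10) := by
  refine ⟨-2, ?_⟩
  have hd : derivative (1 + X : (ZMod 13)[X]) = 1 := by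
    simp only [derivative_add, derivative_one, derivative_X, zero_add]
  rw [hd]
  linear_combination (1 - 1 * (X - 1) ^ 2 - 1 * (X - 1) ^ 3 - 1 * (X - 1) ^ 6 + 1 * (X - 1) ^ 8 + 1 * (X - 1) ^ 9) * char13

theorem ld13_1 : LD 11 (1 + X + X ^ 2 : (ZMod 13)[X])
    (1 + 4 * (X - 1) + 3 * (X - 1) ^ 3 - 3 * (X - 1) ^ 4 + 2 * (X - 1) ^ 5 - 1 * (X - 1) ^ 6 - 4 * (X - 1) ^ 7 - 3 * (X - 1) ^ 9 + 3 * (X - 1) ^ 10) := by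
  refine ⟨-6 - 3 * (X - 1), ?_⟩
  have hd : derivative (1 + X + X ^ 2 : (ZMod 13)[X]) = 1 + 2 * X := by
    simp only [derivative_add, derivative_one, derivative_X, derivative_X_pow, zero_add]
    simp [map_ofNat]
  rw [hd]
  linear_combination (-1 * (X - 1) - 1 * (X - 1) ^ 2 - 1 * (X - 1) ^ 3 + 1 * (X - 1) ^ 7 + 1 * (X - 1) ^ 8 + 1 * (X - 1) ^ 9) * char13

theorem ld13_2 : LD 11 (1 + X + X ^ 2 + X ^ 3 : (ZMod 13)[X])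
    (-5 + 3 * (X - 1) - 2 * (X - 1) ^ 2 - 2 * (X - 1) ^ 3 + 1 * (X - 1) ^ 4 + 1 * (X - 1) ^ 5 - 2 * (X - 1) ^ 6 + 5 * (X - 1) ^ 7 + 4 * (X - 1) ^ 8 - 4 * (X - 1) ^ 9 + 4 * (X - 1) ^ 10) := by
  refine ⟨-12 - 12 * (X - 1) - 4 * (X - 1) ^ 2, ?_⟩
  have hd : derivative (1 + X + X ^ 2 + X ^ 3 : (ZMod 13)[X]) = 1 + 2 * X + 3 * X ^ 2 := by
    simp only [derivative_add, derivative_one, derivative_X, derivative_X_pow, zero_add]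
    simp [map_ofNat]
  rw [hd]
  linear_combination (2 + 2 * (X - 1) + 1 * (X - 1) ^ 2 + 1 * (X - 1) ^ 3 + 1 * (X - 1) ^ 4 - 1 * (X - 1) ^ 7 - 3 * (X - 1) ^ 8 - 2 * (X - 1) ^ 9 - 1 * (X - 1) ^ 10) * char13

theorem ld13_3 : LD 11 (1 + X + X ^ 2 + X ^ 3 + X ^ 4 : (ZMod 13)[X])
    (2 - 1 * (X - 1) ^ 2 + 6 * (X - 1) ^ 3 + 2 * (X - 1) ^ 5 - 2 * (X - 1) ^ 6 + 4 * (X - 1) ^ 7 - 6 * (X - 1) ^ 8 + 3 * (X - 1) ^ 9 + 5 * (X - 1) ^ 10) := by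
  refine ⟨-54 - 59 * (X - 1) - 28 * (X - 1) ^ 2 - 5 * (X - 1) ^ 3, ?_⟩
  have hd : derivative (1 + X + X ^ 2 + X ^ 3 + X ^ 4 : (ZMod 13)[X]) = 1 + 2 * X + 3 * X ^ 2 + 4 * X ^ 3 := by
    simp only [derivative_add, derivative_one, derivative_X, derivative_X_pow, zero_add]
    simp [map_ofNat]
  rw [hd]
  linear_combination (-2 * (X - 1) ^ 3 - 4 * (X - 1) ^ 4 - 5 * (X - 1) ^ 5 - 3 * (X - 1) ^ 6 - 2 * (X - 1) ^ 7 + 1 * (X - 1) ^ 9 - 1 * (X - 1) ^ 10) * char13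

theorem ld13_4 : LD 11 (1 + X + X ^ 2 + X ^ 3 + X ^ 4 + X ^ 5 : (ZMod 13)[X])
    (-4 - 5 * (X - 1) + 3 * (X - 1) ^ 2 - 5 * (X - 1) ^ 3 - 4 * (X - 1) ^ 4 + 1 * (X - 1) ^ 5 + 6 * (X - 1) ^ 6 - 6 * (X - 1) ^ 7 + 6 * (X - 1) ^ 8 - 6 * (X - 1) ^ 9 + 6 * (X - 1) ^ 10) := by
  refine ⟨-30 - 60 * (X - 1) - 60 * (X - 1) ^ 2 - 30 * (X - 1) ^ 3 - 6 * (X - 1) ^ 4, ?_⟩
  have hd : derivative (1 + X + X ^ 2 + X ^ 3 + X ^ 4 + X ^ 5 : (ZMod 13)[X]) = 1 + 2 * X + 3 * X ^ 2 + 4 * X ^ 3 + 5 * X ^ 4 := by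
    simp only [derivative_add, derivative_one, derivative_X, derivative_X_pow, zero_add]
    simp [map_ofNat]
  rw [hd]
  linear_combination (3 + 10 * (X - 1) + 14 * (X - 1) ^ 2 + 13 * (X - 1) ^ 3 + 11 * (X - 1) ^ 4 + 11 * (X - 1) ^ 5 + 7 * (X - 1) ^ 6 + 1 * (X - 1) ^ 7 - 4 * (X - 1) ^ 8 - 2 * (X - 1) ^ 9 - 1 * (X - 1) ^ 10) * char13

theorem ld13_5 : LD 11 (1 + X + X ^ 2 + X ^ 3 + X ^ 4 + X ^ 5 + X ^ 6 : (ZMod 13)[X])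
    (3 + 1 * (X - 1) - 3 * (X - 1) ^ 2 + 1 * (X - 1) ^ 3 + 3 * (X - 1) ^ 4 - 6 * (X - 1) ^ 5) := by
  refine ⟨6, ?_⟩
  have hd : derivative (1 + X + X ^ 2 + X ^ 3 + X ^ 4 + X ^ 5 + X ^ 6 : (ZMod 13)[X]) = 1 + 2 * X + 3 * X ^ 2 + 4 * X ^ 3 + 5 * X ^ 4 + 6 * X ^ 5 := by
    simp only [derivative_add, derivative_one, derivative_X, derivative_X_pow, zero_add]
    simp [map_ofNat]
  rw [hd]
  linear_combination (1 * (X - 1) ^ 5 + 3 * (X - 1) ^ 6 + 8 * (X - 1) ^ 7 + 11 * (X - 1) ^ 8 + 8 * (X - 1) ^ 9 + 3 * (X - 1) ^ 10) * char13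

theorem kummer_lemma_thirteen (K : Type*) [Field K] [NumberField K]
    [IsCyclotomicExtension {13} ℚ K]
    (u : (𝓞 K)ˣ) (m : ℤ) (h : ((13 : ℕ) : 𝓞 K) ∣ (u : 𝓞 K) - (m : 𝓞 K)) :
    ∃ v : (𝓞 K)ˣ, u = v ^ 13 := by
  have : Fact (Nat.Prime 13) := ⟨by norm_num⟩
  refine kummer_of_cert 13 6 11 (by norm_num) (by norm_num) (by norm_num) K cert13 ?_ ?_ u m h
  · intro i
    fin_cases i
    · have := ld13_0
      simpa [cert13, Finset.sum_range_succ, sub_eq_add_neg, add_assoc] using this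
    · have := ld13_1
      simpa [cert13, Finset.sum_range_succ, sub_eq_add_neg, add_assoc] using this
    · have := ld13_2
      simpa [cert13, Finset.sum_range_succ, sub_eq_add_neg, add_assoc] using this
    · have := ld13_3
      simpa [cert13, Finset.sum_range_succ, sub_eq_add_neg, add_assoc] using this
    · have := ld13_4
      simpa [cert13, Finset.sum_range_succ, sub_eq_add_neg, add_assoc] using this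
    · have := ld13_5
      simpa [cert13, Finset.sum_range_succ, sub_eq_add_neg, add_assoc] using this
  · intro n hn
    have h0 := hn 0 (by norm_num)
    have h1 := hn 1 (by norm_num)
    have h3 := hn 3 (by norm_num)
    have h5 := hn 5 (by norm_num)
    have h7 := hn 7 (by norm_num)
    have h9 := hn 9 (by norm_num)
    simp only [cert13, Fin.sum_univ_succ, Fin.sum_univ_zero] at h0 h1 h3 h5 h7 h9
    simp at h0 h1 h3 h5 h7 h9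
    obtain ⟨q0, hq0⟩ := h0
    obtain ⟨q1, hq1⟩ := h1
    obtain ⟨q3, hq3⟩ := h3
    obtain ⟨q5, hq5⟩ := h5
    obtain ⟨q7, hq7⟩ := h7
    obtain ⟨q9, hq9⟩ := h9
    intro i
    fin_cases i
    · have h : ((13 : ℕ) : ℤ) ∣ (n 0 : ℤ) :=
        ⟨(-3 * q0 + 2 * q1 - 3 * q3 - 6 * q5 - 2 * q7 + 6 * q9) + (1 * (n 0 : ℤ) + 2 * (n 1 : ℤ) + 1 * (n 2 : ℤ) + 2 * (n 3 : ℤ) + 1 * (n 4 : ℤ) - 2 * (n 5 : ℤ)), by
          push_cast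
          linear_combination -3 * hq0 + 2 * hq1 - 3 * hq3 - 6 * hq5 - 2 * hq7 + 6 * hq9⟩
      exact_mod_cast h
    · have h : ((13 : ℕ) : ℤ) ∣ (n 1 : ℤ) :=
        ⟨(-1 * q0 - 1 * q1 + 2 * q3 + 4 * q5 - 6 * q9) + (-3 * (n 0 : ℤ) - 2 * (n 1 : ℤ) - 2 * (n 2 : ℤ) - 3 * (n 4 : ℤ) + 2 * (n 5 : ℤ)), by
          push_cast
          linear_combination -1 * hq0 - 1 * hq1 + 2 * hq3 + 4 * hq5 - 6 * hq9⟩
      exact_mod_cast h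
    · have h : ((13 : ℕ) : ℤ) ∣ (n 2 : ℤ) :=
        ⟨(-6 * q0 - 2 * q1 - 4 * q3 - 4 * q5 + 6 * q7 - 2 * q9) + (4 * (n 1 : ℤ) - 5 * (n 2 : ℤ) + 2 * (n 3 : ℤ) - 2 * (n 4 : ℤ)), by
          push_cast
          linear_combination -6 * hq0 - 2 * hq1 - 4 * hq3 - 4 * hq5 + 6 * hq7 - 2 * hq9⟩
      exact_mod_cast h
    · have h : ((13 : ℕ) : ℤ) ∣ (n 3 : ℤ) :=
        ⟨(4 * q0 + 2 * q1 + 2 * q3 - 6 * q5 + 1 * q7 + 5 * q9) + (3 * (n 0 : ℤ) + 1 * (n 1 : ℤ) + 3 * (n 2 : ℤ) - 2 * (n 3 : ℤ) + 6 * (n 4 : ℤ) - 4 * (n 5 : ℤ)), by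
          push_cast
          linear_combination 4 * hq0 + 2 * hq1 + 2 * hq3 - 6 * hq5 + 1 * hq7 + 5 * hq9⟩
      exact_mod_cast h
    · have h : ((13 : ℕ) : ℤ) ∣ (n 4 : ℤ) :=
        ⟨(2 * q0 - 5 * q1 - 4 * q3 + 6 * q5 - 6 * q9) + (1 * (n 0 : ℤ) - 1 * (n 2 : ℤ) + 2 * (n 3 : ℤ) - 6 * (n 4 : ℤ) + 3 * (n 5 : ℤ)), by
          push_cast
          linear_combination 2 * hq0 - 5 * hq1 - 4 * hq3 + 6 * hq5 - 6 * hq9⟩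
      exact_mod_cast h
    · have h : ((13 : ℕ) : ℤ) ∣ (n 5 : ℤ) :=
        ⟨(2 * q0 + 6 * q1 + 6 * q3 + 5 * q5 + 1 * q7 - 5 * q9) + (-4 * (n 0 : ℤ) - 5 * (n 1 : ℤ) - 2 * (n 2 : ℤ) - 3 * (n 3 : ℤ) + 3 * (n 4 : ℤ) + 1 * (n 5 : ℤ)), by
          push_cast
          linear_combination 2 * hq0 + 6 * hq1 + 6 * hq3 + 5 * hq5 + 1 * hq7 - 5 * hq9⟩
      exact_mod_cast h

end Fermat.Agent.S10.V.Kummer
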