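import Mathlib
import Fermat.Agent.S10.V.Kummer.Main

set_option autoImplicit false

open Polynomial NumberField

namespace Fermat.Agent.S10.V.Kummer

/-- certificate matrix for `p = 7`. -/
def cert7 : Fin 3 → ℕ → ℤ := fun i j =>
  ((![[-3, -2, 1, 3, 2], [1, 2, 0, -3, 3], [-2, -2, -3, 0, 0]] :
    Fin 3 → List ℤ) i).getD j 0

theorem char7 : (7 : (ZMod 7)[X]) = 0 := by
  have := CharP.cast_eq_zero (ZMod 7)[X] 7
  exact_mod_cast this

theorem ld7_0 : LD 5 (1 + X : (ZMod 7)[X])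
    (-3 - 2 * (X - 1) + 1 * (X - 1) ^ 2 + 3 * (X - 1) ^ 3 + 2 * (X - 1) ^ 4) := by
  refine ⟨-2, ?_⟩
  have hd : derivative (1 + X : (ZMod 7)[X]) = 1 := by
    simp only [derivative_add, derivative_one, derivative_X, zero_add]
  rw [hd]
  linear_combination (1 + 1 * (X - 1) - 1 * (X - 1) ^ 3 - 1 * (X - 1) ^ 4) * char7

theorem ld7_1 : LD 5 (1 + X + X ^ 2 : (ZMod 7)[X])
    (1 + 2 * (X - 1) - 3 * (X - 1) ^ 3 + 3 * (X - 1) ^ 4) := by
  refine ⟨-6 - 3 * (X - 1), ?_⟩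
  have hd : derivative (1 + X + X ^ 2 : (ZMod 7)[X]) = 1 + 2 * X := by
    simp only [derivative_add, derivative_one, derivative_X, derivative_X_pow, zero_add]
    simp [map_ofNat]
  rw [hd]
  linear_combination (-1 * (X - 1) - 1 * (X - 1) ^ 2 + 1 * (X - 1) ^ 3) * char7

theorem ld7_2 : LD 5 (1 + X + X ^ 2 + X ^ 3 : (ZMod 7)[X])
    (-2 - 2 * (X - 1) - 3 * (X - 1) ^ 2) := by
  refine ⟨3, ?_⟩
  have hd : derivative (1 + X + X ^ 2 + X ^ 3 : (ZMod 7)[X]) = 1 + 2 * X + 3 * X ^ 2 := by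
    simp only [derivative_add, derivative_one, derivative_X, derivative_X_pow, zero_add]
    simp [map_ofNat]
  rw [hd]
  linear_combination (2 + 4 * (X - 1) + 5 * (X - 1) ^ 2 + 4 * (X - 1) ^ 3 + 2 * (X - 1) ^ 4) * char7

theorem kummer_lemma_seven (K : Type*) [Field K] [NumberField K]
    [IsCyclotomicExtension {7} ℚ K]
    (u : (𝓞 K)ˣ) (m : ℤ) (h : ((7 : ℕ) : 𝓞 K) ∣ (u : 𝓞 K) - (m : 𝓞 K)) :
    ∃ v : (𝓞 K)ˣ, u = v ^ 7 := by
  have : Fact (Nat.Prime 7) := ⟨by norm_num⟩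
  refine kummer_of_cert 7 3 5 (by norm_num) (by norm_num) (by norm_num) K cert7 ?_ ?_ u m h
  · intro i
    fin_cases i
    · have := ld7_0
      simpa [cert7, Finset.sum_range_succ, sub_eq_add_neg, add_assoc] using this
    · have := ld7_1
      simpa [cert7, Finset.sum_range_succ, sub_eq_add_neg, add_assoc] using this
    · have := ld7_2
      simpa [cert7, Finset.sum_range_succ, sub_eq_add_neg, add_assoc] using this
  · intro n hn
    have h0 := hn 0 (by norm_num)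
    have h1 := hn 1 (by norm_num)
    have h3 := hn 3 (by norm_num)
    simp only [cert7, Fin.sum_univ_succ, Fin.sum_univ_zero] at h0 h1 h3
    simp at h0 h1 h3
    obtain ⟨q0, hq0⟩ := h0
    obtain ⟨q1, hq1⟩ := h1
    obtain ⟨q3, hq3⟩ := h3
    intro i
    fin_cases i
    · have h : ((7 : ℕ) : ℤ) ∣ (n 0 : ℤ) :=
        ⟨(3 * q0 - 3 * q1 - 1 * q3) + (1 * (n 0 : ℤ)), by
          push_cast
          linear_combination 3 * hq0 - 3 * hq1 - 1 * hq3⟩
      exact_mod_cast h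
    · have h : ((7 : ℕ) : ℤ) ∣ (n 1 : ℤ) :=
        ⟨(3 * q0 - 3 * q1 + 1 * q3) + (1 * (n 1 : ℤ)), by
          push_cast
          linear_combination 3 * hq0 - 3 * hq1 + 1 * hq3⟩
      exact_mod_cast h
    · have h : ((7 : ℕ) : ℤ) ∣ (n 2 : ℤ) :=
        ⟨(3 * q1 + 2 * q3) + (1 * (n 2 : ℤ)), by
          push_cast
          linear_combination 3 * hq1 + 2 * hq3⟩
      exact_mod_cast h

end Fermat.Agent.S10.V.Kummer
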